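import Fermat.Agent.ZetaOdd.CoefficientNorm
import Fermat.Agent.ZetaOdd.Main

/-!
# Linear forms in polylogarithms

`F t = d ^ s ∏_{l ≤ s n} (t - l) / (t (t + 1) ⋯ (t + n)) ^ s` with `d = lcm (1, …, n)` expands into
simple fractions with integral multiples of `d ^ i`; so `∑_k F k q ^ (-k)` is an integral linear
form in `1` and the `Li_i (1 / q)`, `i ≤ s`.
-/

set_option autoImplicit false

noncomputable section

open Finset Polynomial FA.ZetaOdd
open scoped Nat

namespace FA.Nikishin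

/-- The polylogarithm `∑ x ^ k / k ^ s`. -/
def polyLog (s : ℕ) (x : ℝ) : ℝ := ∑' k : ℕ, x ^ (k + 1) / ((k : ℝ) + 1) ^ s

/-- `(t - r n - 1) ⋯ (t - (r + 1) n)`. -/
def blockFactor (n r : ℕ) : ℝ[X] := ∏ l ∈ range n, (X - C ((r * n + l + 1 : ℕ) : ℝ))

theorem eval_blockFactor (n r : ℕ) (t : ℝ) :
    (blockFactor n r).eval t = ∏ l ∈ range n, (t - (r * n + l + 1 : ℕ)) := by
  simp [blockFactor, eval_prod]

theorem natDegree_blockFactor_le (n r : ℕ) : (blockFactor n r).natDegree ≤ n :=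
  (natDegree_prod_le _ _).trans ((sum_le_sum fun _ _ => natDegree_X_sub_C_le _).trans_eq (by simp))

theorem eval_blockFactor_neg (n r j : ℕ) :
    (blockFactor n r).eval (-(j : ℝ)) =
      (-1) ^ n * ((n ! * (j + r * n + n).choose n : ℕ) : ℝ) := by
  rw [eval_blockFactor, ← Nat.ascFactorial_eq_factorial_mul_choose, Nat.ascFactorial_eq_prod_range,
    Nat.cast_prod, show ((-1 : ℝ) ^ n) = ∏ _l ∈ range n, (-1 : ℝ) by simp, ← prod_mul_distrib]
  refine prod_congr rfl fun l _ => ?_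
  push_cast
  ring

/-- The factor of pole order one. -/
def factor (n d r : ℕ) : PoleFree n → ℝ :=
  fun t => (d : ℝ) * (1 * (blockFactor n r).eval t.1 / ∏ j ∈ range (n + 1), (t.1 + j))

theorem factor_mem (n d r : ℕ) : factor n d r ∈ poleGroup n d 1 :=
  mem_poleGroup_one _ (natDegree_blockFactor_le n r) 1 fun j hj =>
    ⟨(-1) ^ n * ((n.choose j * (j + r * n + n).choose n : ℕ) : ℤ), by
      rw [one_mul, eval_blockFactor_neg, ← Nat.choose_mul_factorial_mul_factorial hj]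
      push_cast
      ring⟩

theorem pfBound_factor {n d r s : ℕ} (hr : r < s) :
    PFBound n 1 ((d : ℝ) * 2 ^ ((s + 2) * n)) (factor n d r) := by
  have h := (pfBound_poly (blockFactor n r) (natDegree_blockFactor_le n r) 1
    (M := (2 : ℝ) ^ ((s + 1) * n)) fun j hj => ?_).smul (d : ℝ)
  · refine (h.mono le_rfl (le_of_eq ?_) :)
    rw [Nat.abs_cast, ← pow_add]
    ring_nf
  rw [one_mul, eval_blockFactor_neg, abs_mul, abs_pow, abs_neg, abs_one, one_pow, one_mul,
    Nat.abs_cast, Nat.cast_mul, mul_comm]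
  refine mul_le_mul_of_nonneg_right ?_ (Nat.cast_nonneg _)
  have h1 := (Nat.choose_le_two_pow (j + r * n + n) n).trans
    (Nat.pow_le_pow_right two_pos (show j + r * n + n ≤ (s + 1) * n by
      have := Nat.mul_le_mul_right n (show r + 1 ≤ s from hr)
      rw [add_mul, one_mul] at this ⊢
      omega))
  exact_mod_cast h1

/-- The function `F`. -/
def formFun (n s d : ℕ) (t : ℝ) : ℝ :=
  (d : ℝ) ^ s * (∏ r ∈ range s, (blockFactor n r).eval t) / (∏ j ∈ range (n + 1), (t + j)) ^ s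

/-- Its expansion: integral coefficients, with their size. -/
theorem exists_expansion {n s d : ℕ} (hs : 1 ≤ s) (hd1 : 1 ≤ d)
    (hd : ∀ δ : ℕ, 1 ≤ δ → δ ≤ n → δ ∣ d) :
    ∃ Z : ℕ → ℕ → ℤ,
      (∀ t : PoleFree n, formFun n s d t.1 = ∑ i ∈ range s, ∑ j ∈ range (n + 1),
        (Z i j : ℝ) * ((d : ℝ) / (t.1 + j)) ^ (i + 1)) ∧
      ∀ i < s, ∀ j ≤ n, |(Z i j : ℝ)| ≤ ((s : ℝ) * ((d : ℝ) * 2 ^ ((s + 2) * n))) ^ s := by
  obtain ⟨m, rfl⟩ : ∃ m, s = m + 1 := ⟨s - 1, by omega⟩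
  set G := fun r => factor n d (r + 1)
  have hform : ∀ t : PoleFree n,
      formFun n (m + 1) d t.1 = (factor n d 0 * ∏ r ∈ range m, G r) t := fun t => by
    rw [Pi.mul_apply, Finset.prod_apply, mul_comm, ← prod_range_succ' (fun r => factor n d r t),
      formFun]
    simp only [factor, one_mul, prod_mul_distrib, prod_div_distrib, prod_const, card_range]
    rw [mul_div_assoc]
  have hmem := mul_prod_mem_poleGroup hd (factor_mem n d 0) m (fun r _ => factor_mem n d (r + 1))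
  have hbd := (pfBound_factor (n := n) (d := d) (s := m + 1) (show 0 < m + 1 by omega)).mul_prod
    (S := m + 1) (G := G) (m := m) (fun r hr => pfBound_factor (s := m + 1) (by omega)) (by omega)
    (by positivity)
  rw [add_comm 1 m] at hmem hbd
  obtain ⟨Z, hZ⟩ := exists_coeff_of_mem hmem
  obtain ⟨B, hB, hB'⟩ := hbd
  refine ⟨Z, fun t => (hform t).trans (hZ t), fun i hi j hj => ?_⟩
  have heq := fracSum_unique (c := fun i j => (Z i j : ℝ) * (d : ℝ) ^ (i + 1)) (c' := B)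
    (S := m + 1) (n := n) (fun t => by
      rw [← hB' t, hZ t]
      exact sum_congr rfl fun a _ => sum_congr rfl fun b _ => by
        rw [poleFun, div_pow]; ring) i hi j hj
  have h1 : (1 : ℝ) ≤ (d : ℝ) ^ (i + 1) := one_le_pow₀ (Nat.one_le_cast.2 hd1)
  calc |(Z i j : ℝ)| ≤ |(Z i j : ℝ)| * (d : ℝ) ^ (i + 1) :=
        le_mul_of_one_le_right (abs_nonneg _) h1
    _ = |B i j| := by
        rw [← heq, abs_mul, abs_pow, Nat.abs_cast]
    _ ≤ ∑ b ∈ range (n + 1), |B i b| :=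
        single_le_sum (fun b _ => abs_nonneg (B i b)) (mem_range.2 (by omega))
    _ ≤ ∑ a ∈ range (m + 1), ∑ b ∈ range (n + 1), |B a b| :=
        single_le_sum (f := fun a => ∑ b ∈ range (n + 1), |B a b|)
          (fun a _ => sum_nonneg fun b _ => abs_nonneg _) (mem_range.2 hi)
    _ ≤ _ := hB
    _ ≤ _ := by
        rw [pow_succ', mul_assoc (((m + 1 : ℕ) : ℝ))]
        exact le_mul_of_one_le_left (α := ℝ) (by positivity) (Nat.one_le_cast.2 (by omega))

theorem summable_polyTerm {x : ℝ} (hx : 0 ≤ x) (hx1 : x < 1) (j e : ℕ) :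
    Summable fun k : ℕ => x ^ (k + 1) / ((k : ℝ) + 1 + j) ^ e := by
  refine Summable.of_nonneg_of_le (fun k => by positivity) (fun k => ?_)
    ((summable_geometric_of_lt_one hx hx1).mul_left x)
  rw [← pow_succ']
  refine div_le_self (by positivity) (one_le_pow₀ ?_)
  have : (0 : ℝ) ≤ k := Nat.cast_nonneg k
  have : (0 : ℝ) ≤ j := Nat.cast_nonneg j
  linarith

theorem tsum_polyTerm {q : ℝ} (hq : 1 < q) (j e : ℕ) :
    ∑' k : ℕ, q⁻¹ ^ (k + 1) / ((k : ℝ) + 1 + j) ^ e =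
      q ^ j * (polyLog e q⁻¹ - ∑ m ∈ range j, q⁻¹ ^ (m + 1) / ((m : ℝ) + 1) ^ e) := by
  have hx : 0 ≤ q⁻¹ := by positivity
  have h0 := summable_polyTerm hx (inv_lt_one_of_one_lt₀ hq) 0 e
  simp only [Nat.cast_zero, add_zero] at h0
  rw [polyLog, ← h0.sum_add_tsum_nat_add j, add_sub_cancel_left, ← tsum_mul_left]
  refine tsum_congr fun k => ?_
  have hq0 : q ≠ 0 := by positivity
  rw [show k + j + 1 = j + (k + 1) by ring, pow_add q⁻¹ j, ← mul_div_assoc, ← mul_assoc, ← mul_pow,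
    mul_inv_cancel₀ hq0, one_pow, one_mul]
  push_cast
  ring

/-- The series of `F`. -/
def formValue (n s d : ℕ) (q : ℝ) : ℝ := ∑' k : ℕ, q⁻¹ ^ (k + 1) * formFun n s d ((k : ℝ) + 1)

theorem formValue_eq {n s d : ℕ} {q : ℝ} (hq : 1 < q) {Z : ℕ → ℕ → ℤ}
    (hZ : ∀ t : PoleFree n, formFun n s d t.1 = ∑ i ∈ range s, ∑ j ∈ range (n + 1),
        (Z i j : ℝ) * ((d : ℝ) / (t.1 + j)) ^ (i + 1)) :
    Summable (fun k : ℕ => q⁻¹ ^ (k + 1) * formFun n s d ((k : ℝ) + 1)) ∧
    formValue n s d q = ∑ i ∈ range s, ∑ j ∈ range (n + 1), (Z i j : ℝ) * (d : ℝ) ^ (i + 1) *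
      (q ^ j * (polyLog (i + 1) q⁻¹ - ∑ m ∈ range j, q⁻¹ ^ (m + 1) / ((m : ℝ) + 1) ^ (i + 1))) := by
  have hx : 0 ≤ q⁻¹ := by positivity
  have hsum := fun j e => summable_polyTerm hx (inv_lt_one_of_one_lt₀ hq) j e
  have hterm : ∀ k : ℕ, q⁻¹ ^ (k + 1) * formFun n s d ((k : ℝ) + 1) =
      ∑ i ∈ range s, ∑ j ∈ range (n + 1),
        (Z i j : ℝ) * (d : ℝ) ^ (i + 1) * (q⁻¹ ^ (k + 1) / ((k : ℝ) + 1 + j) ^ (i + 1)) :=
      fun k => by
    have e := hZ (posPoint n (by positivity : (0 : ℝ) < (k : ℝ) + 1))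
    simp only [posPoint] at e
    rw [e, mul_sum]
    refine sum_congr rfl fun i _ => ?_
    rw [mul_sum]
    refine sum_congr rfl fun j _ => ?_
    simp only [div_pow]
    ring
  refine ⟨(summable_sum fun i _ => summable_sum fun j _ => (hsum j (i + 1)).mul_left _).congr
    fun k => (hterm k).symm, ?_⟩
  rw [formValue, tsum_congr hterm,
    Summable.tsum_finsetSum fun i _ => summable_sum fun j _ => (hsum j (i + 1)).mul_left _]
  refine sum_congr rfl fun i _ => ?_
  rw [Summable.tsum_finsetSum fun j _ => (hsum j (i + 1)).mul_left _]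
  exact sum_congr rfl fun j _ => by rw [tsum_mul_left, tsum_polyTerm hq]

theorem formFun_eq_zero {n s d k : ℕ} (hk : k < s * n) : formFun n s d ((k : ℝ) + 1) = 0 := by
  have hn : 0 < n := Nat.pos_of_ne_zero fun h => by rw [h, mul_zero] at hk; omega
  rw [formFun, prod_eq_zero (mem_range.2 (Nat.div_lt_of_lt_mul (by rwa [mul_comm])) :
    k / n ∈ range s), mul_zero, zero_div]
  rw [eval_blockFactor]
  refine prod_eq_zero (mem_range.2 (Nat.mod_lt k hn)) ?_
  rw [Nat.div_add_mod' k n]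
  push_cast
  ring

theorem formFun_bounds {n s d k : ℕ} (hk : s * n ≤ k) :
    0 ≤ formFun n s d ((k : ℝ) + 1) ∧ formFun n s d ((k : ℝ) + 1) ≤ (d : ℝ) ^ s := by
  set t := (k : ℝ) + 1 with ht
  have ht1 : 1 ≤ t := le_add_of_nonneg_left (Nat.cast_nonneg k)
  have hfac : ∀ r < s, 0 ≤ (blockFactor n r).eval t ∧ (blockFactor n r).eval t ≤ t ^ n := by
    intro r hr
    rw [eval_blockFactor]
    have hb : ∀ l ∈ range n, (0 : ℝ) ≤ t - (r * n + l + 1 : ℕ) ∧ t - (r * n + l + 1 : ℕ) ≤ t := by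
      intro l hl
      have h1 : r * n + l + 1 ≤ k := by
        have := Nat.mul_le_mul_right n (show r + 1 ≤ s from hr)
        rw [add_mul, one_mul] at this
        have := mem_range.1 hl
        omega
      have h2 : ((r * n + l + 1 : ℕ) : ℝ) ≤ k := Nat.cast_le.2 h1
      have h3 : (0 : ℝ) ≤ ((r * n + l + 1 : ℕ) : ℝ) := Nat.cast_nonneg _
      constructor <;> linarith
    refine ⟨prod_nonneg fun l hl => (hb l hl).1, ?_⟩
    exact (prod_le_prod (fun l hl => (hb l hl).1) fun l hl => (hb l hl).2).trans_eq (by simp)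
  have hden : t ^ (n + 1) ≤ ∏ j ∈ range (n + 1), (t + j) := by
    rw [show t ^ (n + 1) = ∏ _j ∈ range (n + 1), t by rw [prod_const, card_range]]
    exact prod_le_prod (fun _ _ => by positivity)
      fun j _ => le_add_of_nonneg_right (Nat.cast_nonneg j)
  have hdpos : 0 < ∏ j ∈ range (n + 1), (t + j) := prod_pos fun j _ => by positivity
  have hprod0 : 0 ≤ ∏ r ∈ range s, (blockFactor n r).eval t :=
    prod_nonneg fun r hr => (hfac r (mem_range.1 hr)).1
  rw [formFun]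
  refine ⟨by positivity, ?_⟩
  rw [div_le_iff₀ (pow_pos hdpos s)]
  refine mul_le_mul_of_nonneg_left ?_ (by positivity)
  calc ∏ r ∈ range s, (blockFactor n r).eval t ≤ ∏ _r ∈ range s, t ^ n :=
        prod_le_prod (fun r hr => (hfac r (mem_range.1 hr)).1) fun r hr =>
          (hfac r (mem_range.1 hr)).2
    _ = (t ^ n) ^ s := by simp
    _ ≤ (∏ j ∈ range (n + 1), (t + j)) ^ s :=
        pow_le_pow_left₀ (by positivity) ((pow_le_pow_right₀ ht1 n.le_succ).trans hden) s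

theorem le_formFun_first {n s d : ℕ} (hd1 : 1 ≤ d) :
    ((((n : ℝ) + 1) * 2 ^ ((s + 2) * n + 1)) ^ s)⁻¹ ≤ formFun n s d (((s * n : ℕ) : ℝ) + 1) := by
  set t := ((s * n : ℕ) : ℝ) + 1 with ht
  have hnum : ((n ! : ℕ) : ℝ) ^ s ≤ ∏ r ∈ range s, (blockFactor n r).eval t := by
    rw [show ((n ! : ℕ) : ℝ) ^ s = ∏ _r ∈ range s, ((n ! : ℕ) : ℝ) by simp]
    refine prod_le_prod (fun _ _ => Nat.cast_nonneg _) fun r hr => ?_
    rw [eval_blockFactor, ← prod_range_add_one_eq_factorial, ← prod_range_reflect, Nat.cast_prod]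
    refine prod_le_prod (fun _ _ => Nat.cast_nonneg _) fun l hl => ?_
    have hr' := mem_range.1 hr
    have hl' := mem_range.1 hl
    have h1 : n - 1 - l + 1 + (r * n + l + 1) ≤ s * n + 1 := by
      have := Nat.mul_le_mul_right n (show r + 1 ≤ s from hr')
      rw [add_mul, one_mul] at this
      omega
    have h2 : ((n - 1 - l + 1 + (r * n + l + 1) : ℕ) : ℝ) ≤ ((s * n + 1 : ℕ) : ℝ) :=
      Nat.cast_le.2 h1
    rw [Nat.cast_add] at h2
    rw [ht]
    push_cast at h2 ⊢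
    linarith
  have hden : ∏ j ∈ range (n + 1), (t + j) ≤
      (((n + 1) * n ! : ℕ) : ℝ) * 2 ^ ((s + 2) * n + 1) := by
    rw [show ∏ j ∈ range (n + 1), (t + j) = (((s * n + 1).ascFactorial (n + 1) : ℕ) : ℝ) by
      rw [Nat.ascFactorial_eq_prod_range, Nat.cast_prod]
      exact prod_congr rfl fun j _ => by rw [ht]; push_cast; ring]
    rw [Nat.ascFactorial_eq_factorial_mul_choose, Nat.factorial_succ, Nat.cast_mul]
    refine mul_le_mul_of_nonneg_left ?_ (Nat.cast_nonneg _)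
    have h1 := (Nat.choose_le_two_pow (s * n + (n + 1)) (n + 1)).trans
      (Nat.pow_le_pow_right two_pos (show s * n + (n + 1) ≤ (s + 2) * n + 1 by
        rw [add_mul]; omega))
    exact_mod_cast h1
  have hdpos : 0 < ∏ j ∈ range (n + 1), (t + j) := prod_pos fun j _ => by positivity
  rw [formFun]
  refine le_trans ?_ (div_le_div_of_nonneg_right (mul_le_mul (one_le_pow₀ (Nat.one_le_cast.2 hd1))
    hnum (by positivity) (by positivity)) (pow_nonneg hdpos.le s))
  rw [one_mul, inv_eq_one_div, ← div_pow, ← one_pow s, ← div_pow, one_pow]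
  refine pow_le_pow_left₀ (by positivity) ?_ s
  rw [div_le_div_iff₀ (by positivity) hdpos, one_mul]
  refine hden.trans_eq ?_
  push_cast
  ring

end FA.Nikishin

end
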