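import Fermat.Agent.Nikishin.Forms
import Fermat.Agent.ZetaOdd.Criterion

/-!
# Linear independence of polylogarithms

For `2 ^ L ≤ q < 2 ^ (L + 1)` the forms have coefficients below `2 ^ ((L + O 1) n)` and values
between `2 ^ (-(s L + O 1) n)` and `2 ^ (-(s L - O 1) n)`. A relation leaves forms in `s` numbers,
and the criterion then bounds `L`.
-/

set_option autoImplicit false

noncomputable section

open Finset Filter FA.ZetaOdd
open scoped Nat

namespace FA.Nikishin

/-- `1, Li_1 x, …, Li_s x`. -/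
def polyValues (s : ℕ) (x : ℝ) : Fin (s + 1) → ℝ := Fin.cons 1 fun i => polyLog (i + 1) x

theorem nat_le_two_pow_mul {s n : ℕ} (hn : 1 ≤ n) : s ≤ 2 ^ (s * n) :=
  (Nat.lt_two_pow_self).le.trans (Nat.pow_le_pow_right two_pos (Nat.le_mul_of_pos_right s hn))

theorem eventually_lcmUpto_le :
    ∀ᶠ n : ℕ in atTop, (Nat.lcmUpto n : ℝ) ≤ 2 ^ (3 * n) := by
  obtain ⟨C, hC0, hC⟩ := FA.Apery.exists_lcmUpto_le
  filter_upwards [(tendsto_pow_atTop_atTop_of_one_lt (show (1 : ℝ) < 2 by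
    norm_num)).eventually_ge_atTop
    C] with n hn
  refine (hC n).trans ?_
  calc C * (31 / 10) ^ n ≤ (2 : ℝ) ^ n * 4 ^ n := by
        gcongr
        norm_num
    _ = 2 ^ (3 * n) := by rw [← mul_pow, pow_mul]; norm_num

/-- The constant in the coefficient bound. -/
def coeffConst (s : ℕ) : ℕ := (2 * s + 5) * s + 3 * s + s + 4

/-- The forms and their properties. -/
theorem exists_forms {s n q L : ℕ} (hs : 1 ≤ s) (hn : 1 ≤ n) (hnL : L + 1 ≤ n) (hL : 1 ≤ L)
    (hqlo : 2 ^ L ≤ q) (hqhi : q < 2 ^ (L + 1))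
    (hd : (Nat.lcmUpto n : ℝ) ≤ 2 ^ (3 * n)) :
    ∃ p : Fin (s + 1) → ℤ, (∀ i, |(p i : ℝ)| ≤ (2 : ℝ) ^ ((L + coeffConst s) * n)) ∧
      ((2 : ℝ) ^ (((L + 1) * s + 1 + s * (s + 4)) * n))⁻¹ ≤
        ∑ i, (p i : ℝ) * polyValues s (q : ℝ)⁻¹ i ∧
      ∑ i, (p i : ℝ) * polyValues s (q : ℝ)⁻¹ i ≤
        (2 : ℝ) ^ (3 * s * n) / (2 : ℝ) ^ (L * s * n) := by
  set d := Nat.lcmUpto n with hddef
  have hd1 : 1 ≤ d := Nat.pos_of_ne_zero (by simp [hddef, Nat.lcmUpto, Finset.lcm_eq_zero_iff])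
  have hdiv : ∀ δ : ℕ, 1 ≤ δ → δ ≤ n → δ ∣ d := fun δ h1 h2 => dvd_lcmUpto_of_le h1 h2
  have hq2 : 2 ≤ q := (le_trans (by simpa using Nat.pow_le_pow_right two_pos hL) hqlo)
  have hq1 : (1 : ℝ) < q := by exact_mod_cast hq2
  have hq0 : (0 : ℝ) < q := by linarith
  have hqlo' : (2 : ℝ) ^ L ≤ q := by exact_mod_cast hqlo
  have hqhi' : (q : ℝ) ≤ (2 : ℝ) ^ (L + 1) := by exact_mod_cast hqhi.le
  obtain ⟨Z, hZ, hZb⟩ := exists_expansion hs hd1 hdiv
  obtain ⟨hsum, hval⟩ := formValue_eq hq1 hZ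
  set P : Fin s → ℤ := fun i =>
    ∑ j ∈ range (n + 1), Z i j * (d : ℤ) ^ ((i : ℕ) + 1) * (q : ℤ) ^ j with hP
  set P0 : ℤ := -∑ i ∈ range s, ∑ j ∈ range (n + 1), ∑ m ∈ range j,
    Z i j * (((d / (m + 1) : ℕ) : ℤ)) ^ (i + 1) * (q : ℤ) ^ (j - (m + 1)) with hP0
  have hform : ∑ i, ((Fin.cons P0 P : Fin (s + 1) → ℤ) i : ℝ) * polyValues s (q : ℝ)⁻¹ i =
      formValue n s d q := by
    rw [Fin.sum_univ_succ, hval]
    simp only [polyValues, Fin.cons_zero, Fin.cons_succ, mul_one, hP, hP0, Int.cast_neg,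
      Int.cast_sum, Int.cast_mul, Int.cast_pow, Int.cast_natCast]
    rw [Fin.sum_univ_eq_sum_range (fun i => (∑ j ∈ range (n + 1),
      (Z i j : ℝ) * (d : ℝ) ^ (i + 1) * (q : ℝ) ^ j) * polyLog (i + 1) (q : ℝ)⁻¹) s,
      ← sum_neg_distrib, ← sum_add_distrib]
    refine sum_congr rfl fun i _ => ?_
    rw [sum_mul, neg_add_eq_sub, ← sum_sub_distrib]
    refine sum_congr rfl fun j hj => ?_
    rw [mul_sub, mul_sub, mul_sum, mul_sum]
    refine congrArg₂ _ (by ring) (sum_congr rfl fun m hm => ?_)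
    have hm' := mem_range.1 hm
    have hj' := mem_range.1 hj
    rw [Nat.cast_div (hdiv (m + 1) (by omega) (by omega)) (by positivity), pow_sub₀ _ hq0.ne'
      (by omega : m + 1 ≤ j), div_pow, inv_pow]
    push_cast
    ring
  refine ⟨Fin.cons P0 P, ?_, hform ▸ ?_, hform ▸ ?_⟩
  · -- the coefficients
    have hZ' : ∀ i < s, ∀ j ≤ n, |(Z i j : ℝ)| ≤ (2 : ℝ) ^ ((2 * s + 5) * s * n) := by
      intro i hi j hj
      refine (hZb i hi j hj).trans ?_
      have hb : (s : ℝ) * ((d : ℝ) * 2 ^ ((s + 2) * n)) ≤ (2 : ℝ) ^ ((2 * s + 5) * n) := by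
        calc (s : ℝ) * ((d : ℝ) * 2 ^ ((s + 2) * n))
            ≤ 2 ^ (s * n) * (2 ^ (3 * n) * 2 ^ ((s + 2) * n)) := by
              gcongr
              exact_mod_cast nat_le_two_pow_mul hn
          _ = _ := by rw [← pow_add, ← pow_add]; ring_nf
      refine (pow_le_pow_left₀ (by positivity) hb s).trans_eq ?_
      rw [← pow_mul]; ring_nf
    have hterm : ∀ i < s, ∀ j ≤ n, ∀ (c : ℝ) (k : ℕ), 0 ≤ c → c ≤ d → k ≤ n →
        |(Z i j : ℝ) * c ^ (i + 1) * (q : ℝ) ^ k| ≤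
          (2 : ℝ) ^ (((2 * s + 5) * s + 3 * s + (L + 1)) * n) := by
      intro i hi j hj c k hc hcd hk
      rw [abs_mul, abs_mul, abs_of_nonneg (pow_nonneg hc (i + 1)),
        abs_of_nonneg (pow_nonneg hq0.le k)]
      have h2 : c ^ (i + 1) ≤ (2 : ℝ) ^ (3 * n * s) := by
        refine (pow_le_pow_left₀ hc (hcd.trans hd) (i + 1)).trans ?_
        rw [← pow_mul]
        exact pow_le_pow_right₀ one_le_two (Nat.mul_le_mul_left _ hi)
      have h3 : (q : ℝ) ^ k ≤ (2 : ℝ) ^ ((L + 1) * n) := by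
        refine (pow_le_pow_left₀ hq0.le hqhi' k).trans ?_
        rw [← pow_mul]
        exact pow_le_pow_right₀ one_le_two (Nat.mul_le_mul_left _ hk)
      refine (mul_le_mul (mul_le_mul (hZ' i hi j hj) h2 (pow_nonneg hc _) (by positivity)) h3
        (by positivity) (by positivity)).trans_eq ?_
      rw [← pow_add, ← pow_add]
      ring_nf
    have hcount : (s : ℝ) * ((n : ℝ) + 1) * n ≤ (2 : ℝ) ^ ((s + 3) * n) := by
      have h1 : n + 1 ≤ 2 ^ (2 * n) :=
        (Nat.lt_two_pow_self).trans_le (Nat.pow_le_pow_right two_pos (by omega))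
      calc (s : ℝ) * ((n : ℝ) + 1) * n ≤ 2 ^ (s * n) * 2 ^ (2 * n) * 2 ^ n := by
            gcongr
            · exact_mod_cast nat_le_two_pow_mul hn
            · exact_mod_cast h1
            · exact_mod_cast (Nat.lt_two_pow_self).le
        _ = _ := by rw [← pow_add, ← pow_add]; ring_nf
    set E := (2 : ℝ) ^ (((2 * s + 5) * s + 3 * s + (L + 1)) * n) with hE
    have hfinal : (2 : ℝ) ^ ((s + 3) * n) * E ≤ (2 : ℝ) ^ ((L + coeffConst s) * n) := by
      rw [hE, ← pow_add]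
      refine pow_le_pow_right₀ one_le_two (le_of_eq ?_)
      rw [coeffConst]
      ring
    intro i
    refine Fin.cases ?_ (fun i => ?_) i
    · simp only [Fin.cons_zero, hP0, Int.cast_neg, Int.cast_sum, Int.cast_mul, Int.cast_pow,
        Int.cast_natCast]
      rw [abs_neg]
      refine ((abs_sum_le_sum_abs _ _).trans (sum_le_sum (g := fun _ => ((n : ℝ) + 1) * n * E)
        fun i hi => ?_)).trans ?_
      · refine ((abs_sum_le_sum_abs _ _).trans (sum_le_sum (g := fun _ => (n : ℝ) * E)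
          fun j hj => ?_)).trans_eq ?_
        · have hj' : j ≤ n := Nat.lt_succ_iff.1 (mem_range.1 hj)
          refine ((abs_sum_le_sum_abs _ _).trans (sum_le_sum (g := fun _ => E)
            fun m hm => ?_)).trans
            ?_
          · have hm' := mem_range.1 hm
            refine hterm i (mem_range.1 hi) j hj' _ _ (Nat.cast_nonneg _) ?_ (by omega)
            exact_mod_cast Nat.div_le_self d (m + 1)
          · rw [sum_const, card_range, nsmul_eq_mul]
            exact mul_le_mul_of_nonneg_right (Nat.cast_le.2 hj') (by positivity)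
        · rw [sum_const, card_range, nsmul_eq_mul]
          push_cast
          ring
      · rw [sum_const, card_range, nsmul_eq_mul, ← mul_assoc, ← mul_assoc]
        exact (mul_le_mul_of_nonneg_right hcount (by positivity)).trans hfinal
    · simp only [Fin.cons_succ, hP]
      push_cast
      refine ((abs_sum_le_sum_abs _ _).trans (sum_le_sum (g := fun _ => E) fun j hj => ?_)).trans ?_
      · exact hterm i i.2 j (Nat.lt_succ_iff.1 (mem_range.1 hj)) _ _ (Nat.cast_nonneg _) le_rfl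
          (Nat.lt_succ_iff.1 (mem_range.1 hj))
      · rw [sum_const, card_range, nsmul_eq_mul]
        refine le_trans ?_ hfinal
        refine mul_le_mul_of_nonneg_right (le_trans ?_ hcount) (by positivity)
        push_cast
        have hs' : (1 : ℝ) ≤ s := Nat.one_le_cast.2 hs
        have hn' : (1 : ℝ) ≤ n := Nat.one_le_cast.2 hn
        nlinarith [mul_le_mul_of_nonneg_left (one_le_mul_of_one_le_of_one_le hs' hn')
          (show (0 : ℝ) ≤ (n : ℝ) + 1 by linarith)]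
  · -- from below
    have hnonneg : ∀ k : ℕ, 0 ≤ (q : ℝ)⁻¹ ^ (k + 1) * formFun n s d ((k : ℝ) + 1) := fun k => by
      refine mul_nonneg (by positivity) ?_
      rcases lt_or_ge k (s * n) with h | h
      · rw [formFun_eq_zero h]
      · exact (formFun_bounds h).1
    refine le_trans ?_ (hsum.le_tsum (s * n) fun k _ => hnonneg k)
    refine le_trans ?_ (mul_le_mul_of_nonneg_left (le_formFun_first hd1) (by positivity))
    rw [inv_pow, ← mul_inv, inv_le_inv₀ (by positivity) (by positivity)]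
    have h1 : (q : ℝ) ^ (s * n + 1) ≤ (2 : ℝ) ^ (((L + 1) * s + 1) * n) := by
      refine (pow_le_pow_left₀ hq0.le hqhi' _).trans ?_
      rw [← pow_mul]
      refine pow_le_pow_right₀ one_le_two ?_
      nlinarith
    have h2 : (((n : ℝ) + 1) * 2 ^ ((s + 2) * n + 1)) ^ s ≤ (2 : ℝ) ^ (s * (s + 4) * n) := by
      have h3 : ((n : ℝ) + 1) ≤ 2 ^ n := by exact_mod_cast (Nat.lt_two_pow_self (n := n))
      calc (((n : ℝ) + 1) * 2 ^ ((s + 2) * n + 1)) ^ s
          ≤ ((2 : ℝ) ^ n * 2 ^ ((s + 2) * n + 1)) ^ s := by gcongr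
        _ ≤ ((2 : ℝ) ^ ((s + 4) * n)) ^ s := by
            gcongr
            rw [← pow_add]
            refine pow_le_pow_right₀ one_le_two ?_
            nlinarith
        _ = _ := by rw [← pow_mul]; ring_nf
    refine (mul_le_mul h1 h2 (by positivity) (by positivity)).trans_eq ?_
    rw [← pow_add]
    ring_nf
  · -- from above
    have hx : (0 : ℝ) ≤ (q : ℝ)⁻¹ := by positivity
    have hx2 : (q : ℝ)⁻¹ ≤ 1 / 2 := by
      rw [one_div]
      exact inv_anti₀ two_pos (by exact_mod_cast hq2)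
    rw [formValue, ← hsum.sum_add_tsum_nat_add (s * n), sum_eq_zero fun k hk => by
      rw [formFun_eq_zero (mem_range.1 hk), mul_zero], zero_add]
    have hgeo := (hasSum_geometric_of_lt_one hx (by linarith)).mul_left
      ((q : ℝ)⁻¹ ^ (s * n + 1) * (d : ℝ) ^ s)
    refine (((summable_nat_add_iff (s * n)).2 hsum).tsum_le_tsum (fun k => ?_) hgeo.summable).trans
      ?_
    · refine (mul_le_mul_of_nonneg_left (formFun_bounds (Nat.le_add_left _ k)).2
        (by positivity)).trans_eq ?_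
      rw [show k + s * n + 1 = s * n + 1 + k by ring, pow_add]
      ring
    rw [hgeo.tsum_eq]
    have h1 : (d : ℝ) ^ s ≤ 2 ^ (3 * s * n) := by
      refine (pow_le_pow_left₀ (Nat.cast_nonneg _) hd s).trans_eq ?_
      rw [← pow_mul]; ring_nf
    have h2 : (q : ℝ)⁻¹ ^ (s * n + 1) * (1 - (q : ℝ)⁻¹)⁻¹ ≤ ((2 : ℝ) ^ (L * s * n))⁻¹ := by
      have h3 : (q : ℝ)⁻¹ * (1 - (q : ℝ)⁻¹)⁻¹ ≤ 1 := by
        rw [mul_inv_le_iff₀ (by linarith)]
        linarith
      rw [pow_succ, mul_assoc]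
      refine (mul_le_of_le_one_right (by positivity) h3).trans ?_
      rw [inv_pow, show L * s * n = L * (s * n) by ring, pow_mul (2 : ℝ) L (s * n)]
      exact inv_anti₀ (by positivity) (pow_le_pow_left₀ (by positivity) hqlo' _)
    rw [div_eq_mul_inv, mul_comm ((q : ℝ)⁻¹ ^ (s * n + 1)), mul_assoc]
    exact mul_le_mul h1 h2 (mul_nonneg (by positivity) (inv_nonneg.2 (by linarith))) (by positivity)

/-- The threshold for `L`. -/
def threshold (s : ℕ) : ℕ := s * (coeffConst s + s * (s + 4) + 5 * s + 6) + 3 * s + 3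

/-- There is no relation once `q` is large. -/
theorem no_relation {s q : ℕ} (hs : 1 ≤ s) (hq : 2 ^ threshold s ≤ q) (a : Fin (s + 1) → ℤ)
    (h : ∑ i, (a i : ℝ) * polyValues s (q : ℝ)⁻¹ i = 0) : a = 0 := by
  by_contra hne
  obtain ⟨i₀, hi₀⟩ : ∃ i, a i ≠ 0 := by
    by_contra! hall
    exact hne (funext hall)
  set L := Nat.log 2 q with hL
  have hq0 : q ≠ 0 := fun e => by rw [e] at hq; simp at hq
  have hqlo : 2 ^ L ≤ q := Nat.pow_log_le_self 2 hq0
  have hqhi : q < 2 ^ (L + 1) := Nat.lt_pow_succ_log_self one_lt_two q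
  have hT : threshold s ≤ L := Nat.le_log_of_pow_le one_lt_two hq
  have hT' : 3 * s + 3 ≤ L := le_trans (Nat.le_add_left _ _) (by rwa [threshold, add_assoc] at hT)
  set A : ℤ := ∑ i, |a i| with hA
  have hAle : ∀ i, |(a i : ℝ)| ≤ (A : ℝ) := fun i => by
    rw [← Int.cast_abs]
    exact Int.cast_le.2 (single_le_sum (fun j _ => abs_nonneg (a j)) (mem_univ i))
  have hev : ∀ᶠ n : ℕ in atTop, ∃ p : Fin s → ℤ,
      (∀ i, |(p i : ℝ)| ≤ (2 : ℝ) ^ ((L + coeffConst s + 1) * n)) ∧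
      ((2 : ℝ) ^ (((L + 1) * s + 1 + s * (s + 4)) * n))⁻¹ ≤
        |∑ i, (p i : ℝ) * polyValues s (q : ℝ)⁻¹ (i₀.succAbove i)| ∧
      |∑ i, (p i : ℝ) * polyValues s (q : ℝ)⁻¹ (i₀.succAbove i)| ≤
        ((2 : ℝ) ^ ((L * s - (3 * s + 1)) * n))⁻¹ := by
    filter_upwards [eventually_lcmUpto_le, eventually_ge_atTop (L + 1),
      (tendsto_pow_atTop_atTop_of_one_lt (show (1 : ℝ) < 2 by norm_num)).eventually_ge_atTop
        (2 * (A : ℝ))] with n hd hn hAn
    obtain ⟨p, hp, hlo, hhi⟩ := exists_forms hs (by omega) hn (by omega) hqlo hqhi hd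
    set V := ∑ i, (p i : ℝ) * polyValues s (q : ℝ)⁻¹ i
    refine ⟨fun i => a i₀ * p (i₀.succAbove i) - a (i₀.succAbove i) * p i₀, fun i => ?_, ?_⟩
    · push_cast
      refine (abs_sub _ _).trans ?_
      rw [abs_mul, abs_mul]
      refine (add_le_add (mul_le_mul (hAle i₀) (hp _) (abs_nonneg _) 
          ((abs_nonneg _).trans (hAle i₀)))
        (mul_le_mul (hAle _) (hp i₀) (abs_nonneg _) ((abs_nonneg _).trans (hAle i₀)))).trans ?_
      rw [← two_mul, ← mul_assoc, show (L + coeffConst s + 1) * n = n + (L + coeffConst s) * n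
          by ring,
        pow_add]
      exact mul_le_mul_of_nonneg_right hAn (by positivity)
    have e : ∑ i, ((a i₀ * p (i₀.succAbove i) - a (i₀.succAbove i) * p i₀ : ℤ) : ℝ) *
        polyValues s (q : ℝ)⁻¹ (i₀.succAbove i) = (a i₀ : ℝ) * V := by
      push_cast
      have h1 := Fin.sum_univ_succAbove (fun i => ((a i₀ : ℝ) * p i - a i * p i₀) *
        polyValues s (q : ℝ)⁻¹ i) i₀
      simp only [sub_self, mul_comm (a i₀ : ℝ) (p i₀ : ℝ), zero_mul, zero_add] at h1
      rw [← h1]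
      simp only [sub_mul, sum_sub_distrib, mul_comm (a _ : ℝ) (p i₀ : ℝ), mul_assoc, ← mul_sum]
      rw [show (∑ x, (a x : ℝ) * polyValues s (q : ℝ)⁻¹ x) = 0 from h, mul_zero, sub_zero]
    rw [e, abs_mul]
    have hV : 0 ≤ V := le_trans (by positivity) hlo
    rw [abs_of_nonneg hV]
    refine ⟨hlo.trans (le_mul_of_one_le_left hV ?_), ?_⟩
    · exact_mod_cast Int.one_le_abs hi₀
    refine (mul_le_mul ((hAle i₀).trans (show (A : ℝ) ≤ (2 : ℝ) ^ n by
      have := (abs_nonneg _).trans (hAle i₀)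
      linarith)) hhi hV (by positivity)).trans_eq ?_
    rw [← mul_div_assoc, ← pow_add, inv_eq_one_div, div_eq_div_iff (by positivity) (by positivity),
      one_mul, ← pow_add]
    congr 1
    have h3 : 3 * s + 1 ≤ L * s := le_trans (by omega) (Nat.le_mul_of_pos_right L hs)
    rw [Nat.sub_mul, show n + 3 * s * n = (3 * s + 1) * n by ring,
      Nat.add_sub_cancel' (Nat.mul_le_mul_right n h3)]
  obtain ⟨f, hf⟩ := hev.choice
  have key := forms_dimension_le (fun i : Fin s => polyValues s (q : ℝ)⁻¹ (i₀.succAbove i)) f hf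
  have h3 : 3 * s + 1 ≤ L * s := le_trans (by omega) (Nat.le_mul_of_pos_right L hs)
  have hD : (L + 1) * s + 1 + s * (s + 4) - (L * s - (3 * s + 1)) = s * (s + 4) + 4 * s + 2 := by
    rw [add_mul, one_mul]
    omega
  rw [hD] at key
  obtain ⟨m, rfl⟩ : ∃ m, s = m + 1 := ⟨s - 1, by omega⟩
  rw [Nat.add_sub_cancel, threshold] at *
  have h4 : L * (m + 1) ≤ 3 * (m + 1) + 1 +
      m * (L + coeffConst (m + 1) + 1 + ((m + 1) * (m + 1 + 4) + 4 * (m + 1) + 2)) := by omega
  nlinarith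

theorem linearIndependent_polyValues (s : ℕ) :
    ∃ Q : ℕ, ∀ q : ℕ, Q ≤ q → LinearIndependent ℚ (polyValues s (q : ℝ)⁻¹) := by
  refine ⟨2 ^ threshold s, fun q hq => ?_⟩
  rw [← LinearIndependent.iff_fractionRing ℤ ℚ, Fintype.linearIndependent_iff]
  intro a ha
  have h : ∑ i, (a i : ℝ) * polyValues s (q : ℝ)⁻¹ i = 0 := by
    simpa [zsmul_eq_mul] using ha
  rcases Nat.eq_zero_or_pos s with rfl | hs
  · intro i
    rw [Fin.fin_one_eq_zero i]
    simpa [polyValues] using h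
  · exact congrFun (no_relation hs hq a h)

end FA.Nikishin

end
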